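import Fermat.Agent.S43.F.Abs

/-!
# S43 / Ctl / Abs : the control package (H1), abstract form

`KK` (think `B1.Kum Qb (F1Q N).F m`), `V` (think `ES.Kum N m`), `K0 ≤ KK`, `V0 ≤ V` the `θ`-parts, `G` (think `(ℤ/N)ˣ`) acting on `KK`
through `ρ` (diamonds), `pull : V → KK`, `push : KK → V`, pairings `eK`, `eV` with values in `Additive kˣ`.

From the hypotheses `Hyp` [(INJ), (INV), (ADJ), isometries, non degeneracy on the `θ`-parts, `c • pull ∘ push = ∑_g ρ g`, `c` invertible]: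

* `Hyp.push_surj`  : `push : K0 → V0` is onto;
* `Hyp.ker_push`   : `ker (push | K0) ⊆ IG = ∑_g (ρ g - 1) K0`.

Tower: `GH ≤ G`, `d : G`, `n`, with `(i, h) ↦ d ^ i * h` a bijection `Fin n × GH → G`.  `NH = ∑_{h ∈ GH} ρ h`, `ND = ∑_{i < n} ρ (d ^ i)`,
`HH = NH (K0)`.  Then (no condition on the order of `GH`):

* `Hyp.ker_w`       : `y ∈ HH`, `ρ d y = y`  ⟹  `y = ND y'`, `y' ∈ HH`;
* `Hyp.ker_ND`      : `y ∈ HH`, `ND y = 0`   ⟹  `y = ρ d y' - y'`, `y' ∈ HH`;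
* `Hyp.ND_eq_pull`  : `y ∈ HH` ⟹ `ND y = pull x`, `x ∈ V0`;   `Hyp.pull_eq_ND` : `x ∈ V0` ⟹ `pull x = ND y`, `y ∈ HH`.
-/

set_option autoImplicit false
set_option linter.unusedSectionVars false

namespace Fermat.Agent.S43.Ctl

open Fermat.Agent.S43.F (mem_of_perp)

noncomputable section

variable {KK V G k : Type*} [AddCommGroup KK] [AddCommGroup V] [CommGroup G] [Fintype G]
  [Field k] [IsAlgClosed k] [CharZero k]

/-- restriction of a pairing to a subgroup. -/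
def resP {X C : Type*} [AddCommGroup X] [AddCommGroup C] (e : X →+ X →+ C) (X0 : AddSubgroup X) :
    X0 →+ X0 →+ C :=
  ((e.comp X0.subtype).flip.comp X0.subtype).flip

theorem resP_apply {X C : Type*} [AddCommGroup X] [AddCommGroup C] (e : X →+ X →+ C)
    (X0 : AddSubgroup X) (a b : X0) : resP e X0 a b = e (a : X) (b : X) := rfl

/-- the hypotheses of the control package. -/
structure Hyp (eK : KK →+ KK →+ Additive kˣ) (eV : V →+ V →+ Additive kˣ)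
    (ρ : G → KK →+ KK) (pull : V →+ KK) (push : KK →+ V)
    (K0 : AddSubgroup KK) (V0 : AddSubgroup V) (c c' : ℕ) : Prop where
  finK : Finite K0
  finV : Finite V0
  ρ_one : ∀ y, ρ 1 y = y
  ρ_mul : ∀ g h y, ρ (g * h) y = ρ g (ρ h y)
  ρ_mem : ∀ g, ∀ y ∈ K0, ρ g y ∈ K0
  pull_mem : ∀ x ∈ V0, pull x ∈ K0
  push_mem : ∀ y ∈ K0, push y ∈ V0
  ndK : ∀ a ∈ K0, (∀ b ∈ K0, eK b a = 0) → a = 0
  ndV : ∀ a ∈ V0, (∀ b ∈ V0, eV b a = 0) → a = 0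
  symK : ∀ a b, eK a b = 0 → eK b a = 0
  symV : ∀ a b, eV a b = 0 → eV b a = 0
  iso : ∀ g a b, eK (ρ g a) (ρ g b) = eK a b
  adj : ∀ x y, eK (pull x) y = eV x (push y)
  inj : ∀ x ∈ V0, pull x = 0 → x = 0
  inv : ∀ y ∈ K0, (∀ g, ρ g y = y) → ∃ x ∈ V0, pull x = y
  pp : ∀ y, c • pull (push y) = ∑ g, ρ g y
  cK : ∀ y ∈ K0, (c' * c) • y = y
  cV : ∀ x ∈ V0, (c' * c) • x = x

/-- the augmentation submodule `I_G K0`. -/
def IG (ρ : G → KK →+ KK) (K0 : AddSubgroup KK) : AddSubgroup KK :=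
  AddSubgroup.closure {y | ∃ g, ∃ z ∈ K0, y = ρ g z - z}

variable {eK : KK →+ KK →+ Additive kˣ} {eV : V →+ V →+ Additive kˣ}
  {ρ : G → KK →+ KK} {pull : V →+ KK} {push : KK →+ V}
  {K0 : AddSubgroup KK} {V0 : AddSubgroup V} {c c' : ℕ}

namespace Hyp

/-- **(a)** `push` is onto on the `θ`-parts. -/
theorem push_surj (h : Hyp eK eV ρ pull push K0 V0 c c') : ∀ x ∈ V0, ∃ y ∈ K0, push y = x := by
  intro x hx
  have := h.finV
  have key := mem_of_perp (resP eV V0)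
    (fun a ha => Subtype.ext (h.ndV a a.2 fun b hb => ha ⟨b, hb⟩))
    ((K0.map push).addSubgroupOf V0) ⟨x, hx⟩ ?_
  · rw [AddSubgroup.mem_addSubgroupOf] at key
    obtain ⟨y, hy, hyx⟩ := key
    exact ⟨y, hy, hyx⟩
  · intro κ hκ
    have h1 : pull (κ : V) = 0 := by
      apply h.ndK _ (h.pull_mem _ κ.2)
      intro y hy
      apply h.symK
      rw [h.adj]
      apply h.symV
      exact hκ ⟨push y, h.push_mem y hy⟩ (by
        rw [AddSubgroup.mem_addSubgroupOf]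
        exact ⟨y, hy, rfl⟩)
    have h2 : κ = 0 := Subtype.ext (h.inj _ κ.2 h1)
    rw [h2, map_zero]

theorem ρ_inv_ρ (h : Hyp eK eV ρ pull push K0 V0 c c') (g : G) (y : KK) : ρ g⁻¹ (ρ g y) = y := by
  rw [← h.ρ_mul, inv_mul_cancel, h.ρ_one]

theorem ρ_ρ_inv (h : Hyp eK eV ρ pull push K0 V0 c c') (g : G) (y : KK) : ρ g (ρ g⁻¹ y) = y := by
  rw [← h.ρ_mul, mul_inv_cancel, h.ρ_one]

/-- **(b)** the kernel of `push` is the augmentation submodule. -/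
theorem ker_push (h : Hyp eK eV ρ pull push K0 V0 c c') :
    ∀ y ∈ K0, push y = 0 → y ∈ IG ρ K0 := by
  intro y hy hpy
  have := h.finK
  have key := mem_of_perp (resP eK K0)
    (fun a ha => Subtype.ext (h.ndK a a.2 fun b hb => ha ⟨b, hb⟩))
    ((IG ρ K0).addSubgroupOf K0) ⟨y, hy⟩ ?_
  · exact key
  · intro κ hκ
    have h1 : ∀ g, ρ g (κ : KK) = κ := by
      intro g
      rw [← sub_eq_zero]
      apply h.ndK _ (K0.sub_mem (h.ρ_mem g _ κ.2) κ.2)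
      intro z hz
      have h2 := hκ ⟨ρ g⁻¹ z - z, K0.sub_mem (h.ρ_mem _ _ hz) hz⟩ (by
        rw [AddSubgroup.mem_addSubgroupOf]
        exact AddSubgroup.subset_closure ⟨g⁻¹, z, hz, rfl⟩)
      rw [resP_apply] at h2
      have h3 : eK (ρ g⁻¹ z) (κ : KK) = eK z (ρ g (κ : KK)) := by
        rw [← h.iso g (ρ g⁻¹ z) κ, h.ρ_ρ_inv]
      rw [map_sub, ← h3]
      simpa using h2
    obtain ⟨x, -, hx⟩ := h.inv _ κ.2 h1
    rw [resP_apply]
    apply h.symK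
    rw [← hx, h.adj]
    show eV x (push y) = 0
    rw [hpy, map_zero]

end Hyp

/-! ### the tower -/

variable (GH : Subgroup G) [Fintype GH] (d : G) (n : ℕ)

/-- `Nm_H`. -/
def NH (ρ : G → KK →+ KK) : KK →+ KK := ∑ h : GH, ρ (h : G)

/-- `Nm_Δ`. -/
def ND (ρ : G → KK →+ KK) : KK →+ KK := ∑ i ∈ Finset.range n, ρ (d ^ i)

theorem NH_apply (y : KK) : NH GH ρ y = ∑ h : GH, ρ (h : G) y := by
  simp [NH]

theorem ND_apply (y : KK) : ND d n ρ y = ∑ i ∈ Finset.range n, ρ (d ^ i) y := by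
  simp [ND]

/-- `H = Nm_H (K0)`. -/
def HH (ρ : G → KK →+ KK) (K0 : AddSubgroup KK) : AddSubgroup KK := K0.map (NH GH ρ)

namespace Hyp

variable {GH d n}

theorem NH_mem (h : Hyp eK eV ρ pull push K0 V0 c c') {y : KK} (hy : y ∈ K0) : NH GH ρ y ∈ K0 := by
  rw [NH_apply]
  exact K0.sum_mem fun g _ => h.ρ_mem _ _ hy

theorem HH_le (h : Hyp eK eV ρ pull push K0 V0 c c') : HH GH ρ K0 ≤ K0 := by
  rintro _ ⟨y, hy, rfl⟩
  exact h.NH_mem hy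

theorem ρ_comm (h : Hyp eK eV ρ pull push K0 V0 c c') (g g' : G) (y : KK) :
    ρ g (ρ g' y) = ρ g' (ρ g y) := by
  rw [← h.ρ_mul, ← h.ρ_mul, mul_comm]

theorem ρ_NH (h : Hyp eK eV ρ pull push K0 V0 c c') (g : G) (y : KK) :
    ρ g (NH GH ρ y) = NH GH ρ (ρ g y) := by
  rw [NH_apply, NH_apply, map_sum]
  exact Finset.sum_congr rfl fun g' _ => h.ρ_comm _ _ _

theorem ρ_mem_HH (h : Hyp eK eV ρ pull push K0 V0 c c') (g : G) {y : KK} (hy : y ∈ HH GH ρ K0) :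
    ρ g y ∈ HH GH ρ K0 := by
  obtain ⟨z, hz, rfl⟩ := hy
  exact ⟨ρ g z, h.ρ_mem g z hz, (h.ρ_NH g z).symm⟩

/-- `Nm_H ∘ ρ h = Nm_H` for `h ∈ GH`. -/
theorem NH_ρ_of_mem (h : Hyp eK eV ρ pull push K0 V0 c c') (g : GH) (y : KK) :
    NH GH ρ (ρ (g : G) y) = NH GH ρ y := by
  rw [NH_apply, NH_apply]
  refine Fintype.sum_equiv (Equiv.mulRight g) _ _ fun g' => ?_
  rw [← h.ρ_mul]
  rfl

theorem sum_eq (h : Hyp eK eV ρ pull push K0 V0 c c')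
    (hbij : Function.Bijective (fun p : Fin n × GH => d ^ (p.1 : ℕ) * (p.2 : G))) (y : KK) :
    ∑ g, ρ g y = ND d n ρ (NH GH ρ y) := by
  rw [← hbij.sum_comp (fun g => ρ g y), Fintype.sum_prod_type, ND_apply,
    ← Fin.sum_univ_eq_sum_range (fun i => ρ (d ^ i) (NH GH ρ y)) n]
  refine Finset.sum_congr rfl fun i _ => ?_
  rw [NH_apply, map_sum]
  exact Finset.sum_congr rfl fun g _ => h.ρ_mul _ _ _

/-- `(ρ (d ^ i) - 1) y ∈ (ρ d - 1) HH`. -/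
theorem pow_sub_mem (h : Hyp eK eV ρ pull push K0 V0 c c') (i : ℕ) {y : KK}
    (hy : y ∈ HH GH ρ K0) : ∃ y' ∈ HH GH ρ K0, ρ d y' - y' = ρ (d ^ i) y - y := by
  induction i with
  | zero => exact ⟨0, zero_mem _, by rw [pow_zero, h.ρ_one, map_zero, sub_self, sub_self]⟩
  | succ i ih =>
    obtain ⟨y', hy', he⟩ := ih
    refine ⟨y' + ρ (d ^ i) y, add_mem hy' (h.ρ_mem_HH _ hy), ?_⟩
    rw [map_add, ← h.ρ_mul, ← pow_succ']
    have : ρ d y' = ρ (d ^ i) y - y + y' := by rw [← he]; abel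
    rw [this]
    abel

/-- `Nm_H (I_G K0) ⊆ (ρ d - 1) HH`. -/
theorem NH_IG (h : Hyp eK eV ρ pull push K0 V0 c c')
    (hgen : ∀ g : G, ∃ i : ℕ, ∃ g' : GH, g = d ^ i * (g' : G)) {y : KK} (hy : y ∈ IG ρ K0) :
    ∃ y' ∈ HH GH ρ K0, ρ d y' - y' = NH GH ρ y := by
  induction hy using AddSubgroup.closure_induction with
  | mem y hy =>
    obtain ⟨g, z, hz, rfl⟩ := hy
    obtain ⟨i, g', rfl⟩ := hgen g
    obtain ⟨y', hy', he⟩ := h.pow_sub_mem (d := d) i (y := NH GH ρ z) ⟨z, hz, rfl⟩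
    refine ⟨y', hy', ?_⟩
    rw [he, map_sub, h.ρ_mul, ← h.ρ_NH, h.NH_ρ_of_mem]
  | zero => exact ⟨0, zero_mem _, by simp⟩
  | add a b _ _ ha hb =>
    obtain ⟨a', ha', hea⟩ := ha
    obtain ⟨b', hb', heb⟩ := hb
    refine ⟨a' + b', add_mem ha' hb', ?_⟩
    rw [map_add, map_add, ← hea, ← heb]
    abel
  | neg a _ ha =>
    obtain ⟨a', ha', hea⟩ := ha
    refine ⟨-a', neg_mem ha', ?_⟩
    rw [map_neg, map_neg, ← hea]
    abel

theorem gen_of_bij (hbij : Function.Bijective (fun p : Fin n × GH => d ^ (p.1 : ℕ) * (p.2 : G))) :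
    ∀ g : G, ∃ i : ℕ, ∃ g' : GH, g = d ^ i * (g' : G) := by
  intro g
  obtain ⟨⟨i, g'⟩, hp⟩ := hbij.2 g
  exact ⟨i, g', hp.symm⟩

/-- `pull x = Nm_Δ y` with `y ∈ HH`. -/
theorem pull_eq_ND (h : Hyp eK eV ρ pull push K0 V0 c c')
    (hbij : Function.Bijective (fun p : Fin n × GH => d ^ (p.1 : ℕ) * (p.2 : G))) :
    ∀ x ∈ V0, ∃ y ∈ HH GH ρ K0, ND d n ρ y = pull x := by
  intro x hx
  obtain ⟨z, hz, rfl⟩ := h.push_surj x hx
  refine ⟨NH GH ρ (c' • z), ⟨c' • z, K0.nsmul_mem hz c', rfl⟩, ?_⟩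
  rw [← h.sum_eq hbij, ← h.pp, map_nsmul, map_nsmul, smul_smul, mul_comm,
    h.cK _ (h.pull_mem _ hx)]

/-- `Nm_Δ y = pull x` with `x ∈ V0`. -/
theorem ND_eq_pull (h : Hyp eK eV ρ pull push K0 V0 c c')
    (hbij : Function.Bijective (fun p : Fin n × GH => d ^ (p.1 : ℕ) * (p.2 : G))) :
    ∀ y ∈ HH GH ρ K0, ∃ x ∈ V0, pull x = ND d n ρ y := by
  rintro _ ⟨z, hz, rfl⟩
  refine ⟨c • push z, V0.nsmul_mem (h.push_mem z hz) c, ?_⟩
  rw [← h.sum_eq hbij, ← h.pp, map_nsmul]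

/-- **(c)** `ker (w | HH) = Nm_Δ HH`. -/
theorem ker_w (h : Hyp eK eV ρ pull push K0 V0 c c')
    (hbij : Function.Bijective (fun p : Fin n × GH => d ^ (p.1 : ℕ) * (p.2 : G))) :
    ∀ y ∈ HH GH ρ K0, ρ d y = y → ∃ y' ∈ HH GH ρ K0, ND d n ρ y' = y := by
  intro y hy hdy
  have hpow : ∀ i : ℕ, ρ (d ^ i) y = y := by
    intro i
    induction i with
    | zero => rw [pow_zero, h.ρ_one]
    | succ i ih => rw [pow_succ, h.ρ_mul, hdy, ih]
  have hinv : ∀ g, ρ g y = y := by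
    intro g
    obtain ⟨i, g', rfl⟩ := gen_of_bij hbij g
    obtain ⟨z, hz, rfl⟩ := hy
    rw [mul_comm, h.ρ_mul, hpow, h.ρ_NH, h.NH_ρ_of_mem]
  obtain ⟨x, hx, rfl⟩ := h.inv y (h.HH_le hy) hinv
  exact h.pull_eq_ND hbij x hx

/-- **(d)** `ker (Nm_Δ | HH) = w HH`. -/
theorem ker_ND (h : Hyp eK eV ρ pull push K0 V0 c c')
    (hbij : Function.Bijective (fun p : Fin n × GH => d ^ (p.1 : ℕ) * (p.2 : G))) :
    ∀ y ∈ HH GH ρ K0, ND d n ρ y = 0 → ∃ y' ∈ HH GH ρ K0, ρ d y' - y' = y := by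
  rintro _ ⟨z, hz, rfl⟩ h0
  rw [← h.sum_eq hbij, ← h.pp] at h0
  have h1 : pull (push z) = 0 := by
    rw [← h.cK _ (h.pull_mem _ (h.push_mem z hz)), mul_smul, h0, smul_zero]
  have h2 : push z = 0 := h.inj _ (h.push_mem z hz) h1
  exact h.NH_IG (gen_of_bij hbij) (h.ker_push z hz h2)

end Hyp

end

end Fermat.Agent.S43.Ctl
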