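import Fermat.Agent.S48.B1.Comm
import Fermat.Agent.S15.W.KumPair
import Fermat.Agent.S31.Cyclo
import Fermat.Agent.S43.Th.Adj
import Fermat.Agent.S43.ND.Main

/-!
# S43 / Ctl / Adj : adjoints for the Weil pairing on the Kummer module of a `QField` with `HeckeData`

Generic in `(Q : B1.QField) (H : B1.HeckeData Q N)` (no `F1Q`), exponent `m`.

* `e1K_dia`     : `e(⟨d⟩ a, ⟨d⟩ b) = e(a, b)`;   `e1K_dia_adj` : `e(⟨d⟩ a, b) = e(a, ⟨d⟩⁻¹ b)`;
* `e1K_gal`     : `e(σ a, σ b) = σ e(a, b)`;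
* `e1K_hecke_adj` : `e(T_ℓ a, b) = e(a, ⟨ℓ⟩⁻¹ T_ℓ b)`   (from `T_ℓ = φ + ℓ ⟨ℓ⟩ φ⁻¹`);
* `Kθ`          : the generalised eigenspace (`T_ℓ ↦ a ℓ` for `ℓ ∈ ι`, `⟨d⟩ ↦ 1`);
* `nondeg_Kθ`   : the pairing is non degenerate on `Kθ`.
-/

set_option autoImplicit false
set_option linter.unusedSectionVars false

open AlgebraicCurve ModularCurve

namespace Fermat.Agent.S43.Ctl

open Fermat.Agent.ES (Qb GQ)
open Fermat.Agent.S48.B1 Fermat.Agent.S15.W

noncomputable section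

variable {Q : QField} {N : ℕ} [NeZero N] (H : HeckeData Q N) {m : ℕ} [S26.FF1 Qb Q.F]

theorem e1K_dia (hm : m ≠ 0) (d : (ZMod N)ˣ) (a b : Kum Qb Q.F m) :
    e1K (diaKum H m d a) (diaKum H m d b) = e1K a b := by
  unfold diaKum
  rw [e1K_semi hm]
  rfl

theorem diaKum_inv_diaKum (d : (ZMod N)ˣ) (a : Kum Qb Q.F m) :
    diaKum H m d⁻¹ (diaKum H m d a) = a := by
  have h := congrArg (fun e => e a) (map_mul (diaRepZ H m) d⁻¹ d)
  rw [inv_mul_cancel, map_one] at h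
  exact h.symm

theorem diaKum_diaKum_inv (d : (ZMod N)ˣ) (a : Kum Qb Q.F m) :
    diaKum H m d (diaKum H m d⁻¹ a) = a := by
  have h := congrArg (fun e => e a) (map_mul (diaRepZ H m) d d⁻¹)
  rw [mul_inv_cancel, map_one] at h
  exact h.symm

theorem e1K_dia_adj (hm : m ≠ 0) (d : (ZMod N)ˣ) (a b : Kum Qb Q.F m) :
    e1K (diaKum H m d a) b = e1K a (diaKum H m d⁻¹ b) := by
  rw [← e1K_dia H hm d a (diaKum H m d⁻¹ b), diaKum_diaKum_inv]

theorem e1K_gal (hm : m ≠ 0) (σ : GQ) (a b : Kum Qb Q.F m) :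
    e1K (galKum Q m σ a) (galKum Q m σ b) = σ (e1K a b) := by
  unfold galKum
  rw [e1K_semi hm]
  rfl

theorem galKum_inv_galKum (σ : GQ) (a : Kum Qb Q.F m) : galKum Q m σ⁻¹ (galKum Q m σ a) = a := by
  rw [← galKum_mul, inv_mul_cancel, galKum_one]

theorem galKum_galKum_inv (σ : GQ) (a : Kum Qb Q.F m) : galKum Q m σ (galKum Q m σ⁻¹ a) = a := by
  rw [← galKum_mul, mul_inv_cancel, galKum_one]

/-- **the adjoint of `T_ℓ` is `⟨ℓ⟩⁻¹ T_ℓ`.** -/
theorem e1K_hecke_adj (hD : H.PreservesDm m) (hm : m ≠ 0) (P : Fermat.Agent.ES.D.GoodPrime N)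
    (hPm : ¬ P.1 ∣ m) (hcrux : Crux1 Q P.1 m) (a b : Kum Qb Q.F m) :
    e1K (heckeKum H hD P a) b = e1K a (diaKum H m (gpUnit P)⁻¹ (heckeKum H hD P b)) := by
  obtain ⟨A, hA, φ, hφ⟩ := Fermat.Agent.S54.exists_frob P.1 P.2.1
  have hφζ : ∀ z : Qb, z ^ m = 1 → φ z = z ^ P.1 := fun z hz =>
    Fermat.Agent.S31.frob_apply_root A P.2.1 hA φ hφ hPm hz
  rw [heckeKum_eq H hD hm P hcrux A hA φ hφ a, heckeKum_eq H hD hm P hcrux A hA φ hφ b,
    e1K_add_left hm, map_add, e1K_add_right hm, map_nsmul, diaKum_inv_diaKum, e1K_nsmul_left hm,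
    e1K_nsmul_right hm]
  have h1 : e1K (galKum Q m φ a) b = e1K a (galKum Q m φ⁻¹ b) ^ P.1 := by
    rw [← hφζ _ (e1K_pow hm _ _), ← e1K_gal hm, galKum_galKum_inv]
  have h2 : e1K (diaKum H m (gpUnit P) (galKum Q m φ⁻¹ a)) b ^ P.1
      = e1K a (diaKum H m (gpUnit P)⁻¹ (galKum Q m φ b)) := by
    rw [← hφζ _ (e1K_pow hm _ _), ← e1K_gal hm, ← diaKum_galKum, galKum_galKum_inv,
      e1K_dia_adj H hm]
  rw [h1, h2, mul_comm]

/-! ### the `θ`-part -/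

variable {ι : Type*}

/-- the Hecke operators as `ℤ`-linear maps. -/
def Tl (hD : H.PreservesDm m) (g : ι → Fermat.Agent.ES.D.GoodPrime N) :
    ι → Module.End ℤ (Kum Qb Q.F m) := fun i => (heckeKum H hD (g i)).toIntLinearMap

/-- the `θ`-part of the Kummer module: `T_ℓ ↦ a ℓ`, `⟨d⟩ ↦ 1`. -/
def Kθ (hD : H.PreservesDm m) (g : ι → Fermat.Agent.ES.D.GoodPrime N) (a : ι → ℤ) :
    AddSubgroup (Kum Qb Q.F m) :=
  Th.Vth (Th.fam (Tl H hD g) (diaRepZ H m)) (Th.lamS (ZMod N)ˣ a)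

theorem fam_comm (hD : H.PreservesDm m) (hm : m ≠ 0) (g : ι → Fermat.Agent.ES.D.GoodPrime N)
    (hcrux : ∀ i, Crux1 Q (g i).1 m) (i j : ι ⊕ (ZMod N)ˣ) :
    Commute (Th.fam (Tl H hD g) (diaRepZ H m) i) (Th.fam (Tl H hD g) (diaRepZ H m) j) := by
  rcases i with i | d <;> rcases j with j | d'
  · exact LinearMap.ext fun x => heckeKum_comm H hD hm (g i) (g j) (hcrux i) x
  · exact LinearMap.ext fun x => (diaKum_heckeKum H hD d' (g i) x).symm
  · exact LinearMap.ext fun x => diaKum_heckeKum H hD d (g j) x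
  · exact LinearMap.ext fun x => diaKum_comm H d d' x

theorem dia_Tl_comm (hD : H.PreservesDm m) (g : ι → Fermat.Agent.ES.D.GoodPrime N)
    (d : (ZMod N)ˣ) (i : ι) : Commute (diaRepZ H m d) (Tl H hD g i) :=
  LinearMap.ext fun x => diaKum_heckeKum H hD d (g i) x

theorem fam'_comm (hD : H.PreservesDm m) (hm : m ≠ 0) (g : ι → Fermat.Agent.ES.D.GoodPrime N)
    (hcrux : ∀ i, Crux1 Q (g i).1 m) (i j : ι ⊕ (ZMod N)ˣ) :
    Commute (Th.fam' (Tl H hD g) (diaRepZ H m) (fun i => gpUnit (g i)) i)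
      (Th.fam' (Tl H hD g) (diaRepZ H m) (fun i => gpUnit (g i)) j) := by
  have hTT : ∀ i j, Commute (Tl H hD g i) (Tl H hD g j) := fun i j =>
    fam_comm H hD hm g hcrux (Sum.inl i) (Sum.inl j)
  have hDD : ∀ d d', Commute (diaRepZ H m d) (diaRepZ H m d') := fun d d' =>
    fam_comm H hD hm g hcrux (Sum.inr d) (Sum.inr d')
  have hDT := dia_Tl_comm H hD g
  rcases i with i | d <;> rcases j with j | d'
  · exact ((hDD _ _).mul_right (hDT _ _)).mul_left ((hDT _ _).symm.mul_right (hTT _ _))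
  · exact (hDD _ _).mul_left (hDT _ _).symm
  · exact (hDD _ _).mul_right (hDT _ _)
  · exact hDD _ _

/-- **the Weil pairing is non degenerate on the `θ`-part.** -/
theorem nondeg_Kθ {p k : ℕ} (hp : p.Prime) [Finite (Kum Qb Q.F (p ^ k))]
    (hD : H.PreservesDm (p ^ k)) (g : ι → Fermat.Agent.ES.D.GoodPrime N)
    (hgp : ∀ i, (g i).1 ≠ p) (hcrux : ∀ i, Crux1 Q (g i).1 (p ^ k)) (j : Qb →+* ℂ) (a : ι → ℤ)
    {x : Kum Qb Q.F (p ^ k)} (hx : x ∈ Kθ H hD g a)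
    (h : ∀ y ∈ Kθ H hD g a, e1K y x = 1) : x = 0 := by
  have hm : p ^ k ≠ 0 := (pow_pos hp.pos k).ne'
  have h0 : ∀ u v : Kum Qb Q.F (p ^ k), e1Hom hm u v = 0 ↔ e1K u v = 1 := by
    intro u v
    constructor
    · intro h
      rw [← e1Hom_apply hm, h]
      rfl
    · intro h
      apply Additive.toMul.injective
      apply Units.ext
      rw [e1Hom_apply hm, h]
      rfl
  have heq : ∀ u v u' v' : Kum Qb Q.F (p ^ k), e1K u v = e1K u' v' →
      e1Hom hm u v = e1Hom hm u' v' := by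
    intro u v u' v' h
    apply Additive.toMul.injective
    apply Units.ext
    rw [e1Hom_apply hm, e1Hom_apply hm, h]
  refine Th.nondeg_of_adj (T := Th.fam (Tl H hD g) (diaRepZ H (p ^ k)))
    (T' := Th.fam' (Tl H hD g) (diaRepZ H (p ^ k)) (fun i => gpUnit (g i)))
    (fam_comm H hD hm g hcrux) (fam'_comm H hD hm g hcrux) hp
    (fun x => Kum.nsmul_eq_zero x) (e1Hom hm) ?_
    (Th.Vth_fam'_eq _ _ _ (dia_Tl_comm H hD g) a)
    (fun u hu => ND.eq_zero_of_e1K_right hm j fun v => (h0 _ _).1 (hu v)) hx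
    (fun y hy => (h0 _ _).2 (h y hy))
  rintro (i | d) u v
  · apply heq
    have hPm : ¬ (g i).1 ∣ p ^ k := fun h =>
      hgp i ((Nat.prime_dvd_prime_iff_eq (g i).2.1 hp).1 ((g i).2.1.dvd_of_dvd_pow h))
    exact e1K_hecke_adj H hD hm (g i) hPm (hcrux i) u v
  · apply heq
    exact e1K_dia_adj H hm d u v

end

end Fermat.Agent.S43.Ctl
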