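import Fermat.Agent.S43.R0.Pull
import Fermat.Agent.S31.Cyclo
import Fermat.Agent.Crux.Main
import Fermat.Agent.S54.Frobenius
import Fermat.Agent.ES.B.Output
import Fermat.Agent.ES.B.ToD

/-!
# S43 / Ctl / Inj : the kernel of `π^* : Kum N m → Kum (F1(N)) m` is an "Eisenstein" Galois module

* `gal_of_pull_eq_zero` : `π^* x = 0`  ⟹  `σ x = χ_m(σ) x` for all `σ ∈ G_ℚ`
  (`f = k ^ m`, `⟨d⟩ k = c_d k`, `c_d ∈ μ_m`; `σ k / k ^ e` is fixed by the diamond operators);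
* `hecke_of_pull_eq_zero` : `π^* x = 0`  ⟹  `T_ℓ x = (ℓ + 1) x` (`ℓ ∤ N m`);
* `eq_zero_of_pull_eq_zero` : **(INJ)**  `π^* x = 0`, `m = p ^ k`, `(T_ℓ - a) ^ n x = 0`, `p ∤ a - (ℓ + 1)`  ⟹  `x = 0`.
-/

set_option autoImplicit false
set_option linter.unusedSectionVars false

open AlgebraicCurve ModularCurve

namespace Fermat.Agent.S43.Ctl

open Fermat.Agent.S48 Fermat.Agent.S43.R0
open Fermat.Agent.ES (Qb GQ FF)

noncomputable section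

/-- an `m`-th root of unity of an extension field of `ℚ̄` is a constant. -/
theorem exists_const_of_pow_eq_one {F : Type*} [Field F] [Algebra Qb F] {m : ℕ} (hm : m ≠ 0) {y : F}
    (hy : y ^ m = 1) : ∃ c : Qb, c ^ m = 1 ∧ algebraMap Qb F c = y := by
  have : NeZero m := ⟨hm⟩
  obtain ⟨ζ, hζ⟩ := HasEnoughRootsOfUnity.exists_primitiveRoot Qb m
  have hζ' : IsPrimitiveRoot (algebraMap Qb F ζ) m :=
    hζ.map_of_injective (algebraMap Qb F).injective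
  obtain ⟨i, -, hi⟩ := hζ'.eq_pow_of_pow_eq_one hy
  refine ⟨ζ ^ i, ?_, by rw [map_pow, hi]⟩
  rw [← pow_mul, mul_comm, pow_mul, hζ.pow_eq_one, one_pow]

variable {N : ℕ} [NeZero N] (hN : 5 ≤ N)

/-- **the kernel of `π^*` is of `μ`-type.** -/
theorem gal_of_pull_eq_zero {m : ℕ} (hm : m ≠ 0) (x : ES.Kum N m) (hx : pull hN m x = 0) (σ : GQ)
    (e : ℕ) (he : ∀ ζ : Qb, ζ ^ m = 1 → σ ζ = ζ ^ e) : ES.galKum N m σ x = e • x := by
  obtain ⟨f, rfl⟩ := ES.Kum.mk_surjective x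
  rw [pull_mk, B1.Kum.mk_eq_zero_iff] at hx
  obtain ⟨k, hk⟩ := hx
  have hk' : ((k : (X1.F1Q N).Fˣ) : (X1.F1Q N).F) ^ m = incl hN ((f : (FF N)ˣ) : FF N) := by
    have := congrArg (fun u : (X1.F1Q N).Fˣ => (u : (X1.F1Q N).F)) hk
    simpa using this
  have hk0 : ((k : (X1.F1Q N).Fˣ) : (X1.F1Q N).F) ≠ 0 := k.ne_zero
  set κ : (X1.F1Q N).F := ((k : (X1.F1Q N).Fˣ) : (X1.F1Q N).F) with hκ
  -- the diamond operators multiply `κ` by roots of unity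
  have hdia : ∀ d : (ZMod N)ˣ, ∃ c : Qb, c ^ m = 1 ∧
      An1.dia (DD hN) d κ = algebraMap Qb (X1.F1Q N).F c * κ := by
    intro d
    have h1 : (An1.dia (DD hN) d κ / κ) ^ m = 1 := by
      rw [div_pow, ← map_pow, hk', dia_incl, div_self]
      rw [← hk']
      exact pow_ne_zero _ hk0
    obtain ⟨c, hc, hc'⟩ := exists_const_of_pow_eq_one hm h1
    exact ⟨c, hc, by rw [hc', div_mul_cancel₀ _ hk0]⟩
  have hσ0 : (X1.F1Q N).galF σ κ ≠ 0 := (map_ne_zero _).2 hk0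
  -- `σ κ / κ ^ e` comes from `F_N`
  obtain ⟨g, hg⟩ := mem_range_incl hN ((X1.F1Q N).galF σ κ / κ ^ e) (by
    intro d
    obtain ⟨c, hc, hd⟩ := hdia d
    have h2 : An1.dia (DD hN) d ((X1.F1Q N).galF σ κ)
        = algebraMap Qb (X1.F1Q N).F (c ^ e) * (X1.F1Q N).galF σ κ := by
      rw [An1.dia_gal, hd, map_mul, B1.QField.galF_algebraMap, he c hc]
    have hc0 : algebraMap Qb (X1.F1Q N).F (c ^ e) ≠ 0 := by
      rw [Ne, map_eq_zero]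
      apply pow_ne_zero
      rintro rfl
      rw [zero_pow hm] at hc
      exact zero_ne_one hc
    rw [map_div₀, map_pow, h2, hd, mul_pow, ← map_pow, mul_div_mul_left _ _ hc0])
  have hg0 : g ≠ 0 := by
    rintro rfl
    rw [map_zero] at hg
    exact div_ne_zero hσ0 (pow_ne_zero _ hk0) hg.symm
  have hf0 : ((f : (FF N)ˣ) : FF N) ≠ 0 := (f : (FF N)ˣ).ne_zero
  have hgm : g ^ m = ES.galF N σ ((f : (FF N)ˣ) : FF N) / ((f : (FF N)ˣ) : FF N) ^ e := by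
    apply incl_injective hN
    rw [map_pow, hg, div_pow, ← map_pow, hk', galF_incl, map_div₀, map_pow, ← hk', ← pow_mul,
      ← pow_mul, mul_comm]
  rw [ES.galKum_mk, ← ES.Kum.mk_pow, ES.Kum.mk_eq_mk_iff]
  refine ⟨Units.mk0 g hg0, Units.ext ?_⟩
  rw [Units.val_pow_eq_pow_val, Units.val_mk0, hgm, div_eq_mul_inv]
  simp

theorem eq_zero_of_coprime_nsmul {X : Type*} [AddCommGroup X] {a b : ℕ} (hab : Nat.Coprime a b) {y : X}
    (ha : a • y = 0) (hb : b • y = 0) : y = 0 := by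
  rw [← AddMonoid.addOrderOf_eq_one_iff]
  exact Nat.eq_one_of_dvd_coprimes hab (addOrderOf_dvd_of_nsmul_eq_zero ha)
    (addOrderOf_dvd_of_nsmul_eq_zero hb)

/-- **the kernel of `π^*` is Eisenstein.** -/
theorem hecke_of_pull_eq_zero {m ℓ : ℕ} [NeZero ℓ] (hm : m ≠ 0) (hℓ : ℓ.Prime) (hℓN : ¬ ℓ ∣ N)
    (hℓm : ¬ ℓ ∣ m) (x : ES.Kum N m) (hx : pull hN m x = 0) :
    ES.heckeKum N ℓ hℓ hℓN m x = (ℓ + 1) • x := by
  obtain ⟨A, hA⟩ := Fermat.Agent.S54.exists_liesOverPrime ℓ hℓ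
  obtain ⟨φ, hφ⟩ := Fermat.Agent.S54.exists_isFrobeniusAt ℓ hℓ A hA
  have h1 : ES.galKum N m φ x = ℓ • x :=
    gal_of_pull_eq_zero hN hm x hx φ ℓ fun ζ hζ => Fermat.Agent.S31.frob_apply_root A hℓ hA φ hφ hℓm hζ
  have h2 := ES.eichlerShimura_Kum hm hℓ hℓN (Fermat.Agent.Crux.crux N ℓ m hℓ hℓN hℓm) A hA φ hφ x
  rw [h1, map_nsmul, map_nsmul, h1] at h2
  have h3 : ℓ • ((ℓ + 1) • x - ES.heckeKum N ℓ hℓ hℓN m x) = 0 := by
    rw [← h2, smul_sub, add_smul, one_smul, smul_add]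
    abel
  have h4 := eq_zero_of_coprime_nsmul ((Nat.Prime.coprime_iff_not_dvd hℓ).2 hℓm) h3
    (ES.Kum.nsmul_eq_zero _)
  exact (sub_eq_zero.1 h4).symm

/-- **(INJ)**, iterate form. -/
theorem eq_zero_of_pull_eq_zero {p k ℓ : ℕ} [NeZero ℓ] (hp : p.Prime) (hℓ : ℓ.Prime) (hℓN : ¬ ℓ ∣ N)
    (hℓp : ℓ ≠ p) (a : ℤ) (ha : ¬ (p : ℤ) ∣ a - (ℓ + 1)) (x : ES.Kum N (p ^ k))
    (hx : pull hN (p ^ k) x = 0) (n : ℕ)
    (hn : (fun y : ES.Kum N (p ^ k) => ES.heckeKum N ℓ hℓ hℓN (p ^ k) y - a • y)^[n] x = 0) : x = 0 := by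
  have hm : p ^ k ≠ 0 := pow_ne_zero _ hp.ne_zero
  have hℓm : ¬ ℓ ∣ p ^ k := fun h => hℓp ((Nat.prime_dvd_prime_iff_eq hℓ hp).1 (hℓ.dvd_of_dvd_pow h))
  have hT := hecke_of_pull_eq_zero hN hm hℓ hℓN hℓm x hx
  have hit : ∀ j : ℕ, (fun y : ES.Kum N (p ^ k) => ES.heckeKum N ℓ hℓ hℓN (p ^ k) y - a • y)^[j] x
      = (((ℓ : ℤ) + 1 - a) ^ j) • x := by
    intro j
    induction j with
    | zero => simp
    | succ j ih =>
      rw [Function.iterate_succ_apply', ih, map_zsmul, hT, pow_succ, mul_smul, smul_comm a, ← smul_sub]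
      congr 1
      rw [sub_smul, add_smul, add_smul, one_smul, one_smul, natCast_zsmul]
  rw [hit] at hn
  have hcop : IsCoprime ((((ℓ : ℤ) + 1 - a) ^ n)) (((p ^ k : ℕ) : ℤ)) := by
    rw [Nat.cast_pow]
    apply IsCoprime.pow
    rw [isCoprime_comm, Prime.coprime_iff_not_dvd (Nat.prime_iff_prime_int.1 hp)]
    intro h
    apply ha
    have : a - ((ℓ : ℤ) + 1) = -((ℓ : ℤ) + 1 - a) := by ring
    rw [this]
    exact (dvd_neg).2 h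
  obtain ⟨u, v, huv⟩ := hcop
  have h5 : ((p ^ k : ℕ) : ℤ) • x = 0 := by
    rw [natCast_zsmul]
    exact ES.Kum.nsmul_eq_zero x
  calc x = (1 : ℤ) • x := (one_smul _ _).symm
    _ = (u * (((ℓ : ℤ) + 1 - a) ^ n) + v * ((p ^ k : ℕ) : ℤ)) • x := by rw [huv]
    _ = 0 := by rw [add_smul, mul_smul, mul_smul, hn, h5, smul_zero, smul_zero, add_zero]

/-- **(INJ)**, `Module.End` form. -/
theorem eq_zero_of_pull_eq_zero' {p k : ℕ} (hp : p.Prime) (ℓ : ES.D.GoodPrime N)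
    (hℓp : ℓ.1 ≠ p) (a : ℤ) (ha : ¬ (p : ℤ) ∣ a - (ℓ.1 + 1)) (x : ES.Kum N (p ^ k))
    (hx : pull hN (p ^ k) x = 0) (n : ℕ)
    (hn : ((ES.heckeT N (p ^ k) ℓ - a • (1 : Module.End ℤ (ES.Kum N (p ^ k)))) ^ n) x = 0) : x = 0 := by
  have : NeZero ℓ.1 := ⟨ℓ.2.1.ne_zero⟩
  refine eq_zero_of_pull_eq_zero hN hp ℓ.2.1 ℓ.2.2 hℓp a ha x hx n ?_
  rw [Module.End.pow_apply] at hn
  exact hn

end

end Fermat.Agent.S43.Ctl
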