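import Fermat.Agent.S43.Ctl.Abs
import Fermat.Agent.S43.Ctl.Inj
import Fermat.Agent.S43.Th.KK2
import Fermat.Agent.S43.PB.K0
import Fermat.Agent.S43.ThK.Push
import Fermat.Agent.S43.I.Lev
import Fermat.Agent.S43.Th.Bridge

/-!
# S43 / Ctl / Inst : the CONCRETE instance of the control package `Ctl.Hyp` on the `θ`-parts of `KK = Kum(F1(N), p^k)` and `Kum N (p^k)`
-/

set_option autoImplicit false

open AlgebraicCurve ModularCurve

namespace Fermat.Agent.S43.CtlI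

open Fermat.Agent.S48 Fermat.Agent.S43.R0
open Fermat.Agent.ES (Qb GQ FF)
open Fermat.Agent.SS (GP)
open Fermat.Agent.S15.W (e1K e1N e1NHom)

noncomputable section

variable {N : ℕ} [NeZero N] (hN : 5 ≤ N) {p : ℕ} (hp : p.Prime) (k : ℕ) {S : Finset ℕ}
  (hNS : ∀ r : ℕ, r.Prime → r ∣ N → r ∈ S) (hpS : p ∈ S) (a : ℕ → ℤ)

include hp in
theorem half_mul_two (hp2 : p ≠ 2) : (p ^ k + 1) / 2 * 2 = p ^ k + 1 := by
  have hodd : Odd (p ^ k) := (hp.odd_of_ne_two hp2).pow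
  obtain ⟨t, ht⟩ := hodd
  rw [ht]
  omega

include hpS in
/-- **the concrete control package.** -/
theorem hyp (hp5 : 5 ≤ p) (hpN : ¬ p ∣ N) (hnE : ∃ ℓ : GP S, ¬ (p : ℤ) ∣ a ℓ.1 - (ℓ.1 + 1)) :
    Ctl.Hyp (k := Qb) (Th.eKK hN hp k) (e1NHom (N := N) (pow_pos hp.pos k).ne')
      (fun d : (ZMod N)ˣ => B1.diaKum (HD hN) (p ^ k) d) (pull hN (p ^ k)) (push hN (p ^ k))
      (Th.K0 hN hp k hNS a) (Fin.Vth N (p ^ k) S a) 2 ((p ^ k + 1) / 2) := by
  have hm : p ^ k ≠ 0 := (pow_pos hp.pos k).ne'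
  have hp2 : p ≠ 2 := by omega
  have := Th.ff1_F1 hN
  have : Finite (B1.Kum Qb (X1.F1Q N).F (p ^ k)) := Th.finite_KK hN hp k
  have : Finite (Fermat.Agent.ES.Kum N (p ^ k)) :=
    Fermat.Agent.ES.Glue.finite_Kum (pow_pos hp.pos k)
  have hV : Fin.Vth N (p ^ k) S a = I.Vth N (p ^ k) hNS a := Th.Fin_Vth_eq_I
  refine
    { finK := inferInstance
      finV := inferInstance
      ρ_one := fun y => ?_
      ρ_mul := fun g h y => ?_
      ρ_mem := fun g y hy => Th.dia_mem_K0 hN hp k hNS a g hy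
      pull_mem := fun x hx => Th.pull_mem_K0 hN hp k hNS hpS a (hV ▸ hx)
      push_mem := fun y hy => hV ▸ Th.push_mem_Vth hN hp k hNS hpS a hy
      ndK := fun y hy h => Th.ndK hN hp k hNS hpS a y hy h
      ndV := fun x hx h => ?_
      symK := fun x y h => ?_
      symV := fun x y h => ?_
      iso := fun g x y => Th.eKK_dia hN hp k g x y
      adj := fun x y => ?_
      inj := fun x hx h => ?_
      inv := fun y hy h => PB.inv_K0 hN hp k hNS hpS a hp5 hpN hnE y hy h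
      pp := fun y => pull_push hN y
      cK := fun y _ => ?_
      cV := fun x _ => ?_ }
  · exact congrArg (fun f : Module.End ℤ _ => f y) (map_one (B1.diaRepZ (HD hN) (p ^ k)))
  · exact congrArg (fun f : Module.End ℤ _ => f y) (map_mul (B1.diaRepZ (HD hN) (p ^ k)) g h)
  · rw [hV] at hx
    refine I.lev_Vth_nondeg hm hx fun y hy => ?_
    have h1 := h y (hV ▸ hy)
    rw [Fermat.Agent.S15.W.e1NHom_eq_zero_iff] at h1
    rw [Fermat.Agent.S15.W.e1N_symm hm, h1, inv_one]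
  · rw [Th.eKK_eq_zero_iff] at h ⊢
    exact (Fermat.Agent.S15.W.e1K_eq_one_comm hm x y).1 h
  · rw [Fermat.Agent.S15.W.e1NHom_eq_zero_iff] at h ⊢
    rw [Fermat.Agent.S15.W.e1N_symm hm, h, inv_one]
  · apply Additive.toMul.injective
    apply Units.ext
    exact ThK.e1K_pull hN hm x y
  · obtain ⟨ℓ, hℓ⟩ := hnE
    rw [hV] at hx
    obtain ⟨n, hn⟩ := hx ℓ
    have hℓp : (ℓ.good hNS).1 ≠ p := fun h => ℓ.2.2 (by
      have h' : ℓ.1 = p := h
      rw [h']
      exact hpS)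
    exact Ctl.eq_zero_of_pull_eq_zero' hN hp (ℓ.good hNS) hℓp (a ℓ.1) hℓ x h n hn
  · rw [half_mul_two hp k hp2, add_smul, one_smul, Th.killed_KK, zero_add]
  · rw [half_mul_two hp k hp2, add_smul, one_smul, Fermat.Agent.ES.Kum.nsmul_eq_zero, zero_add]

end

end Fermat.Agent.S43.CtlI
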