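import Fermat.Agent.S43.Ctl.Main
import Fermat.Agent.S43.Ctl.Inst

set_option autoImplicit false
open AlgebraicCurve ModularCurve
namespace Fermat.Agent.S43.CtlI
open Fermat.Agent.S48 Fermat.Agent.S43.R0
open Fermat.Agent.ES (Qb GQ FF)
open Fermat.Agent.SS (GP)

variable {N : ℕ} [NeZero N] (hN : 5 ≤ N) {p : ℕ} (hp : p.Prime) (k : ℕ) {S : Finset ℕ}
  (hNS : ∀ r : ℕ, r.Prime → r ∣ N → r ∈ S) (hpS : p ∈ S) (a : ℕ → ℤ)

theorem K0_eq : Ctl.K0 hN hp k S hNS a = Th.K0 hN hp k hNS a := rfl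

end Fermat.Agent.S43.CtlI
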