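import Fermat.Agent.S43.Ctl.Abs
import Fermat.Agent.S43.Ctl.Adj
import Fermat.Agent.S43.Ctl.Inj
import Fermat.Agent.S43.R0.HeckePP
import Fermat.Agent.S43.ThK.Push
import Fermat.Agent.S43.Th.Kum

/-!
# S43 / Ctl / Main : the control package (H1), CONCRETE instance on `KK = Kum Qb (F1Q N).F (p ^ k)`

* `K0 hN hp k S hNS a` : the `θ`-part of `KK` (`T_ℓ ↦ a ℓ` for `ℓ ∉ S`, `⟨d⟩ ↦ 1`);
* `INV hN m`           : the only geometric input which is not proved here: for a class `y` of `KK` fixed by all diamond operators and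
                         `σ ∈ G_ℚ` acting on `μ_m` by `ζ ↦ ζ ^ e`:  `σ y - e y ∈ π^* (Kum N m)`;
* `inv_θ`              : `INV` + non Eisenstein  ⟹  every diamond invariant class of `K0` is `π^* x`, `x ∈ Vθ`;
* `hyp`                : `Ctl.Hyp` for `(KK, Kum N (p ^ k), K0, Vθ, diaKum, π^*, π_*)` with `c = 2`.
-/

set_option autoImplicit false
set_option linter.unusedSectionVars false
set_option linter.unusedVariables false
set_option linter.style.haveILetI false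

open AlgebraicCurve ModularCurve

namespace Fermat.Agent.S43.Ctl

open Fermat.Agent.S48 Fermat.Agent.S43.R0
open Fermat.Agent.ES (Qb GQ FF)
open Fermat.Agent.SS (GP)

noncomputable section

variable {N : ℕ} [NeZero N] (hN : 5 ≤ N)

/-- (INV), the geometric input. -/
def INV (m : ℕ) : Prop :=
  ∀ y : B1.Kum Qb (X1.F1Q N).F m, (∀ d, B1.diaKum (HD hN) m d y = y) →
    ∀ (σ : GQ) (e : ℕ), (∀ ζ : Qb, ζ ^ m = 1 → σ ζ = ζ ^ e) →
      ∃ x : ES.Kum N m, pull hN m x = B1.galKum (X1.F1Q N) m σ y - e • y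

variable {p : ℕ} (hp : p.Prime) (k : ℕ) (S : Finset ℕ)
  (hNS : ∀ r : ℕ, r.Prime → r ∣ N → r ∈ S) (a : ℕ → ℤ)

/-- the good primes outside `S`. -/
def gS : GP S → ES.D.GoodPrime N := fun ℓ => ℓ.good hNS

/-- the `θ`-part of `KK`. -/
def K0 : AddSubgroup (B1.Kum Qb (X1.F1Q N).F (p ^ k)) :=
  Kθ (HD hN) (preservesDm_HD hN (pow_pos hp.pos k)) (gS S hNS) (fun ℓ => a ℓ.1)

variable {S}

theorem gS_ne (hpS : p ∈ S) (ℓ : GP S) : (gS S hNS ℓ).1 ≠ p := fun h => ℓ.2.2 (by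
  have : ℓ.1 = p := h
  rw [this]; exact hpS)

include hN hp in
theorem crux_gS (hpS : p ∈ S) (ℓ : GP S) : B1.Crux1 (X1.F1Q N) (gS S hNS ℓ).1 (p ^ k) :=
  CH.crux1_F1 N hN hp k _ (gS S hNS ℓ).2.1 (gS S hNS ℓ).2.2 (gS_ne hNS hpS ℓ)

theorem pull_TT (hpS : p ∈ S) (ℓ : GP S) (x : ES.Kum N (p ^ k)) :
    pull hN (p ^ k) (Th.TT N (p ^ k) S hNS ℓ x)
      = Tl (HD hN) (preservesDm_HD hN (pow_pos hp.pos k)) (gS S hNS) ℓ (pull hN (p ^ k) x) := by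
  haveI : NeZero (gS S hNS ℓ).1 := ⟨(gS S hNS ℓ).2.1.ne_zero⟩
  exact pull_heckeKum hN hp k (gS S hNS ℓ) (gS_ne hNS hpS ℓ) x

theorem push_Tl (hpS : p ∈ S) (ℓ : GP S) (y : B1.Kum Qb (X1.F1Q N).F (p ^ k)) :
    push hN (p ^ k) (Tl (HD hN) (preservesDm_HD hN (pow_pos hp.pos k)) (gS S hNS) ℓ y)
      = Th.TT N (p ^ k) S hNS ℓ (push hN (p ^ k) y) := by
  haveI : NeZero (gS S hNS ℓ).1 := ⟨(gS S hNS ℓ).2.1.ne_zero⟩
  exact push_heckeKum hN hp k (gS S hNS ℓ) (gS_ne hNS hpS ℓ) y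

theorem mem_K0_iff {y : B1.Kum Qb (X1.F1Q N).F (p ^ k)} :
    y ∈ K0 hN hp k S hNS a ↔
      y ∈ Th.Vth (Tl (HD hN) (preservesDm_HD hN (pow_pos hp.pos k)) (gS S hNS)) (fun ℓ => a ℓ.1) ∧
      ∀ d : (ZMod N)ˣ, ∃ n : ℕ, ((B1.diaRepZ (HD hN) (p ^ k) d
        - algebraMap ℤ (Module.End ℤ (B1.Kum Qb (X1.F1Q N).F (p ^ k))) 1) ^ n) y = 0 :=
  ⟨fun h => ⟨fun ℓ => h (Sum.inl ℓ), fun d => h (Sum.inr d)⟩,
    fun h => by
      rintro (ℓ | d)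
      · exact h.1 ℓ
      · exact h.2 d⟩

theorem pull_mem_K0 (hpS : p ∈ S) {x : ES.Kum N (p ^ k)} (hx : x ∈ Th.Vθ N (p ^ k) S hNS a) :
    pull hN (p ^ k) x ∈ K0 hN hp k S hNS a := by
  rw [mem_K0_iff]
  refine ⟨Th.map_mem_Vth (pull hN (p ^ k)) (pull_TT hN hp k hNS hpS) hx, fun d => ⟨1, ?_⟩⟩
  rw [pow_one, LinearMap.sub_apply, map_one, Module.End.one_apply, B1.diaRepZ_apply, dia_pull,
    sub_self]

theorem push_mem_Vθ (hpS : p ∈ S) {y : B1.Kum Qb (X1.F1Q N).F (p ^ k)}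
    (hy : y ∈ K0 hN hp k S hNS a) : push hN (p ^ k) y ∈ Th.Vθ N (p ^ k) S hNS a :=
  Th.map_mem_Vth (push hN (p ^ k)) (push_Tl hN hp k hNS hpS) ((mem_K0_iff hN hp k hNS a).1 hy).1

theorem fam_comm_K0 (hpS : p ∈ S) (i j : GP S ⊕ (ZMod N)ˣ) :
    Commute (Th.fam (Tl (HD hN) (preservesDm_HD hN (pow_pos hp.pos k)) (gS S hNS))
        (B1.diaRepZ (HD hN) (p ^ k)) i)
      (Th.fam (Tl (HD hN) (preservesDm_HD hN (pow_pos hp.pos k)) (gS S hNS))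
        (B1.diaRepZ (HD hN) (p ^ k)) j) := by
  haveI := ThK.ff1_F1 hN
  exact fam_comm (HD hN) _ (pow_pos hp.pos k).ne' (gS S hNS) (crux_gS hN hp k hNS hpS) i j

theorem dia_mem_K0 (hpS : p ∈ S) (d : (ZMod N)ˣ) {y : B1.Kum Qb (X1.F1Q N).F (p ^ k)}
    (hy : y ∈ K0 hN hp k S hNS a) : B1.diaKum (HD hN) (p ^ k) d y ∈ K0 hN hp k S hNS a :=
  Th.map_mem_Vth (B1.diaKum (HD hN) (p ^ k) d)
    (fun i x => congrArg (fun f : Module.End ℤ _ => f x)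
      (fam_comm_K0 hN hp k hNS hpS (Sum.inr d) i).eq) hy

theorem gal_mem_K0 (σ : GQ) {y : B1.Kum Qb (X1.F1Q N).F (p ^ k)}
    (hy : y ∈ K0 hN hp k S hNS a) : B1.galKum (X1.F1Q N) (p ^ k) σ y ∈ K0 hN hp k S hNS a :=
  Th.map_mem_Vth (B1.galKum (X1.F1Q N) (p ^ k) σ)
    (fun i x => by
      rcases i with ℓ | d
      · exact B1.galKum_heckeKum (HD hN) (preservesDm_HD hN (pow_pos hp.pos k)) σ (gS S hNS ℓ) x
      · exact (B1.diaKum_galKum (HD hN) d σ x).symm) hy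

/-- `T_ℓ - (ℓ + 1)` as a polynomial in the Hecke operators. -/
def eisP (ℓ0 : GP S) : FreeAlgebra ℤ (GP S ⊕ (ZMod N)ˣ) :=
  FreeAlgebra.ι ℤ (Sum.inl ℓ0) - algebraMap ℤ _ ((ℓ0.1 : ℤ) + 1)

theorem lift_eisP (ℓ0 : GP S) (y : B1.Kum Qb (X1.F1Q N).F (p ^ k)) :
    FreeAlgebra.lift ℤ (Th.fam (Tl (HD hN) (preservesDm_HD hN (pow_pos hp.pos k)) (gS S hNS))
        (B1.diaRepZ (HD hN) (p ^ k))) (eisP ℓ0) y
      = B1.heckeKum (HD hN) (preservesDm_HD hN (pow_pos hp.pos k)) (gS S hNS ℓ0) y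
        - ((ℓ0.1 : ℤ) + 1) • y := by
  rw [eisP, map_sub, FreeAlgebra.lift_ι_apply, AlgHom.commutes, LinearMap.sub_apply,
    Module.algebraMap_end_apply]
  rfl

theorem lift_lam_eisP (ℓ0 : GP S) :
    FreeAlgebra.lift ℤ (Th.lamS (ZMod N)ˣ (fun ℓ : GP S => a ℓ.1)) (eisP ℓ0)
      = a ℓ0.1 - ((ℓ0.1 : ℤ) + 1) := by
  rw [eisP, map_sub, FreeAlgebra.lift_ι_apply, AlgHom.commutes]
  rfl

/-- **(INV) at `θ`.** -/
theorem inv_θ (hpS : p ∈ S) (hinv : INV hN (p ^ k)) (ℓ0 : GP S)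
    (hℓ0 : ¬ (p : ℤ) ∣ a ℓ0.1 - ((ℓ0.1 : ℤ) + 1)) {y : B1.Kum Qb (X1.F1Q N).F (p ^ k)}
    (hy : y ∈ K0 hN hp k S hNS a) (hfix : ∀ d, B1.diaKum (HD hN) (p ^ k) d y = y) :
    ∃ x ∈ Th.Vθ N (p ^ k) S hNS a, pull hN (p ^ k) x = y := by
  haveI := CH.finite_F1 N hN (pow_pos hp.pos k)
  haveI : Finite (ES.Kum N (p ^ k)) := ES.Glue.finite_Kum (pow_pos hp.pos k)
  have hm : p ^ k ≠ 0 := (pow_pos hp.pos k).ne'
  have hcomm := fam_comm_K0 hN hp k hNS hpS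
  have hkill : ∀ x : B1.Kum Qb (X1.F1Q N).F (p ^ k), (p ^ k) • x = 0 :=
    fun x => B1.Kum.nsmul_eq_zero x
  have hP : ¬ (p : ℤ) ∣ FreeAlgebra.lift ℤ (Th.lamS (ZMod N)ˣ (fun ℓ : GP S => a ℓ.1))
      (eisP ℓ0) := by
    rw [lift_lam_eisP]; exact hℓ0
  set P0 := gS S hNS ℓ0 with hP0
  set T := B1.heckeKum (HD hN) (preservesDm_HD hN (pow_pos hp.pos k)) P0 with hT
  have hL : ∀ z, FreeAlgebra.lift ℤ (Th.fam (Tl (HD hN) (preservesDm_HD hN (pow_pos hp.pos k))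
      (gS S hNS)) (B1.diaRepZ (HD hN) (p ^ k))) (eisP ℓ0) z = T z - ((ℓ0.1 : ℤ) + 1) • z :=
    fun z => lift_eisP hN hp k hNS ℓ0 z
  haveI := ThK.ff1_F1 hN
  obtain ⟨y1, hy1, he1⟩ := Th.lift_surjOn hcomm hp hkill hP hy
  rw [hL] at he1
  -- `y1` is fixed by the diamond operators
  have hfix1 : ∀ d, B1.diaKum (HD hN) (p ^ k) d y1 = y1 := by
    intro d
    rw [← sub_eq_zero]
    refine Th.lift_injOn hcomm hp hkill hP
      ((K0 hN hp k S hNS a).sub_mem (dia_mem_K0 hN hp k hNS a hpS d hy1) hy1) ?_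
    rw [hL, map_sub, smul_sub, hT, ← B1.diaKum_heckeKum, ← hT]
    have : B1.diaKum (HD hN) (p ^ k) d (T y1) - T y1
        - (((ℓ0.1 : ℤ) + 1) • B1.diaKum (HD hN) (p ^ k) d y1 - ((ℓ0.1 : ℤ) + 1) • y1)
        = B1.diaKum (HD hN) (p ^ k) d (T y1 - ((ℓ0.1 : ℤ) + 1) • y1)
          - (T y1 - ((ℓ0.1 : ℤ) + 1) • y1) := by
      rw [map_sub, map_zsmul]; abel
    rw [this, he1, hfix d, sub_self]
  obtain ⟨A, hA, φ, hφ⟩ := S54.exists_frob P0.1 P0.2.1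
  have hPm : ¬ P0.1 ∣ p ^ k := fun h => gS_ne hNS hpS ℓ0
    ((Nat.prime_dvd_prime_iff_eq P0.2.1 hp).1 (P0.2.1.dvd_of_dvd_pow h))
  have hφζ : ∀ z : Qb, z ^ (p ^ k) = 1 → φ z = z ^ P0.1 := fun z hz =>
    S31.frob_apply_root A P0.2.1 hA φ hφ hPm hz
  set g := B1.galKum (X1.F1Q N) (p ^ k) with hg
  have hfix2 : ∀ d, B1.diaKum (HD hN) (p ^ k) d (y1 - g φ⁻¹ y1) = y1 - g φ⁻¹ y1 := by
    intro d
    rw [map_sub, B1.diaKum_galKum, hfix1]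
  obtain ⟨x, hx⟩ := hinv _ hfix2 φ P0.1 hφζ
  have hxy : pull hN (p ^ k) x = y := by
    rw [hx, ← he1, hT, KK_heckeKum_eq hN hp k P0 (gS_ne hNS hpS ℓ0) A hA φ hφ,
      B1.diaKum_galKum, hfix1, map_sub, galKum_galKum_inv, smul_sub, add_smul, one_smul,
      natCast_zsmul]
    show g φ y1 - y1 - (P0.1 • y1 - P0.1 • g φ⁻¹ y1) = g φ y1 + P0.1 • g φ⁻¹ y1 - (P0.1 • y1 + y1)
    abel
  exact Th.exists_preimage (Th.TT_comm _ hNS)
    (fun i j => hcomm (Sum.inl i) (Sum.inl j)) hp hkill (pull hN (p ^ k))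
    (pull_TT hN hp k hNS hpS) ((mem_K0_iff hN hp k hNS a).1 hy).1 ⟨x, hxy⟩

include hp in
theorem half_smul {X : Type*} [AddCommGroup X] (hp2 : p ≠ 2) {x : X} (hx : (p ^ k) • x = 0) :
    (((p ^ k + 1) / 2) * 2) • x = x := by
  have hodd : Odd (p ^ k) := (hp.odd_of_ne_two hp2).pow
  obtain ⟨t, ht⟩ := hodd
  have : (p ^ k + 1) / 2 * 2 = p ^ k + 1 := by omega
  rw [this, add_smul, hx, one_smul, zero_add]

/-- **the concrete control package.** -/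
theorem hyp [S26.FF1 Qb (X1.F1Q N).F] (hp2 : p ≠ 2) (hpS : p ∈ S) (hinv : INV hN (p ^ k))
    (ℓ0 : GP S) (hℓ0 : ¬ (p : ℤ) ∣ a ℓ0.1 - ((ℓ0.1 : ℤ) + 1)) :
    Hyp (S15.W.e1Hom (K := Qb) (F := (X1.F1Q N).F) (pow_pos hp.pos k).ne')
      (S15.W.e1NHom (N := N) (pow_pos hp.pos k).ne')
      (fun d => B1.diaKum (HD hN) (p ^ k) d) (pull hN (p ^ k)) (push hN (p ^ k))
      (K0 hN hp k S hNS a) (Th.Vθ N (p ^ k) S hNS a) 2 ((p ^ k + 1) / 2) := by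
  haveI := CH.finite_F1 N hN (pow_pos hp.pos k)
  haveI : Finite (ES.Kum N (p ^ k)) := ES.Glue.finite_Kum (pow_pos hp.pos k)
  have hm : p ^ k ≠ 0 := (pow_pos hp.pos k).ne'
  have h0 : ∀ u v : B1.Kum Qb (X1.F1Q N).F (p ^ k),
      S15.W.e1Hom hm u v = 0 ↔ S15.W.e1K u v = 1 := by
    intro u v
    constructor
    · intro h
      rw [← S15.W.e1Hom_apply hm, h]
      rfl
    · intro h
      apply Additive.toMul.injective
      apply Units.ext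
      rw [S15.W.e1Hom_apply hm, h]
      rfl
  have h0' : ∀ u v : ES.Kum N (p ^ k), S15.W.e1NHom hm u v = 0 ↔ S15.W.e1N u v = 1 := by
    intro u v
    constructor
    · intro h
      rw [← S15.W.e1NHom_apply hm, h]
      rfl
    · intro h
      apply Additive.toMul.injective
      apply Units.ext
      rw [S15.W.e1NHom_apply hm, h]
      rfl
  refine
    { finK := inferInstance
      finV := inferInstance
      ρ_one := fun y => ?_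
      ρ_mul := fun g h y => ?_
      ρ_mem := fun g y hy => dia_mem_K0 hN hp k hNS a hpS g hy
      pull_mem := fun x hx => pull_mem_K0 hN hp k hNS a hpS hx
      push_mem := fun y hy => push_mem_Vθ hN hp k hNS a hpS hy
      ndK := fun x hx h => ?_
      ndV := fun x hx h => ?_
      symK := fun u v h => (h0 _ _).2 ((S15.W.e1K_eq_one_comm hm u v).1 ((h0 _ _).1 h))
      symV := fun u v h => ?_
      iso := fun g u v => ?_
      adj := fun x y => ?_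
      inj := fun x hx h => ?_
      inv := fun y hy h => inv_θ hN hp k hNS a hpS hinv ℓ0 hℓ0 hy h
      pp := fun y => pull_push hN y
      cK := fun y _ => half_smul hp k hp2 (B1.Kum.nsmul_eq_zero y)
      cV := fun x _ => half_smul hp k hp2 (ES.Kum.nsmul_eq_zero x) }
  · have h := congrArg (fun e => e y) (map_one (B1.diaRepZ (HD hN) (p ^ k)))
    exact h
  · have h' := congrArg (fun e => e y) (map_mul (B1.diaRepZ (HD hN) (p ^ k)) g h)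
    exact h'
  · exact nondeg_Kθ (HD hN) hp _ (gS S hNS) (gS_ne hNS hpS) (crux_gS hN hp k hNS hpS) S24.iotaC
      (fun ℓ => a ℓ.1) hx (fun y hy => (h0 _ _).1 (h y hy))
  · by_contra hx0
    obtain ⟨y, hy, hne⟩ := Th.e1N_nondeg_θ hp hx hx0
    apply hne
    rw [S15.W.e1N_symm hm, (h0' _ _).1 (h y hy), inv_one]
  · rw [h0'] at h ⊢
    rw [S15.W.e1N_symm hm, h, inv_one]
  · apply Additive.toMul.injective
    apply Units.ext
    rw [S15.W.e1Hom_apply hm, S15.W.e1Hom_apply hm]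
    exact e1K_dia (HD hN) hm g u v
  · apply Additive.toMul.injective
    apply Units.ext
    rw [S15.W.e1Hom_apply hm, S15.W.e1NHom_apply hm]
    exact ThK.e1K_pull hN hm x y
  · obtain ⟨n, hn⟩ := hx ℓ0
    refine eq_zero_of_pull_eq_zero' hN hp (gS S hNS ℓ0) (gS_ne hNS hpS ℓ0) (a ℓ0.1) hℓ0 x h n ?_
    rw [← hn, Th.dd, Algebra.algebraMap_eq_smul_one]
    rfl

end

end Fermat.Agent.S43.Ctl
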